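import Fermat.Agent.S18.Glue
import Fermat.Agent.S24.Packages
import Fermat.Agent.S24.FF.Principal
import Fermat.Agent.S26.FF.Exists
import Fermat.Agent.S28.IntTower
import Fermat.Agent.S28.Reduce

/-! # S18 glue, part 2: the concrete inputs (finiteness of divisors in characteristic zero, constants in
characteristic `ℓ`, lifting of functions). -/

set_option autoImplicit false

open HahnSeries IntermediateField AlgebraicCurve ModularCurve Polynomial

namespace Fermat.Agent.S18

noncomputable section

/-- The residue field of a valuation subring of an algebraically closed field is algebraically closed. -/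
theorem isAlgClosed_residueField {K : Type*} [Field K] [IsAlgClosed K] (A : ValuationSubring K) :
    IsAlgClosed (IsLocalRing.ResidueField A) := by
  refine IsAlgClosed.of_exists_root _ fun p hp hirr => ?_
  obtain ⟨P, hPmap, hPdeg, hPmonic⟩ := Polynomial.lifts_and_degree_eq_and_monic
    ((Polynomial.mem_lifts p).mpr
      (Polynomial.map_surjective _ (IsLocalRing.residue_surjective (R := A)) p)) hp
  have hdeg : (P.map (algebraMap A K)).degree ≠ 0 := by
    rw [hPmonic.degree_map, hPdeg]
    exact (Polynomial.degree_pos_of_irreducible hirr).ne'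
  obtain ⟨z, hz⟩ := IsAlgClosed.exists_root _ hdeg
  have hzint : IsIntegral A z := ⟨P, hPmonic, by rwa [IsRoot.def, eval_map] at hz⟩
  obtain ⟨a, rfl⟩ := IsIntegrallyClosed.isIntegral_iff.mp hzint
  refine ⟨IsLocalRing.residue A a, ?_⟩
  rw [← hPmap, eval_map, Polynomial.eval₂_hom]
  have : P.eval a = 0 := by
    rw [IsRoot.def, eval_map, Polynomial.eval₂_hom] at hz
    exact (FaithfulSMul.algebraMap_injective A K) (by rw [hz, map_zero])
  rw [this, map_zero]

/-- A field generated over `k` by a finite set of elements algebraic over `k[x]`, `x` transcendental, is a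
function field of one variable. -/
theorem ff1_adjoin {k E : Type*} [Field k] [Field E] [Algebra k E] (S : Set E) (hS : S.Finite)
    (x : adjoin k S) (hx : Transcendental k x)
    (hint : ∀ s (hs : s ∈ S), IsAlgebraic (Algebra.adjoin k {x})
      (⟨s, subset_adjoin k S hs⟩ : adjoin k S)) :
    Fermat.Agent.S26.FF1 k (adjoin k S) where
  essFiniteType := IntermediateField.essFiniteType_iff.mpr (IntermediateField.fg_adjoin_of_finite hS)
  trdeg_eq_one := by
    have halg : Algebra.IsAlgebraic (Algebra.adjoin k {x}) (adjoin k S) := by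
      refine ⟨fun y => ?_⟩
      obtain ⟨y, hy⟩ := y
      induction hy using IntermediateField.adjoin_induction with
      | mem s hs => exact hint s hs
      | algebraMap c =>
        exact isAlgebraic_algebraMap (R := Algebra.adjoin k {x}) (A := adjoin k S)
          (algebraMap k (Algebra.adjoin k {x}) c)
      | add a b ha hb iha ihb => exact iha.add ihb
      | inv a ha iha => exact iha.inv
      | mul a b ha hb iha ihb => exact iha.mul ihb
    apply le_antisymm
    · have := Algebra.IsAlgebraic.trdeg_le_cardinalMk k ({x} : Set (adjoin k S))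
      simpa using this
    · have : Algebra.Transcendental k (adjoin k S) := ⟨⟨x, hx⟩⟩
      exact Cardinal.one_le_iff_pos.mpr (trdeg_pos _ _)

section Fk

variable (k : Type*) [Field k] (N : ℕ) [NeZero N]

theorem divisorExpansionsC_finite : (divisorExpansionsC k N).Finite := by
  classical
  let f : ℕ → LaurentSeries k := fun d =>
    if h : d = 0 then 0 else (haveI : NeZero d := ⟨h⟩; qExpand k d (jqModC k))
  refine ((N.divisors : Set ℕ).toFinite.image f).subset ?_
  rintro x ⟨d, hd, hdN, rfl⟩
  refine ⟨d, by simpa using ⟨hdN, NeZero.ne N⟩, ?_⟩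
  simp only [f, dif_neg (NeZero.ne d)]

/-- `j` as an element of the reduced function field. -/
def jk : modularFunctionFieldFullC k N := ⟨jqModC k, jqModC_mem_full k N⟩

omit [NeZero N] in
theorem transcendental_jk : Transcendental k (jk k N) := by
  intro h
  exact Fermat.Agent.S28.transcendental_jqModC k ((IntermediateField.isAlgebraic_iff).mp h)

omit [NeZero N] in
theorem isAlgebraic_gen (s : LaurentSeries k) (hs : s ∈ divisorExpansionsC k N) :
    IsAlgebraic (Algebra.adjoin k {jk k N})
      (⟨s, subset_adjoin k _ hs⟩ : modularFunctionFieldFullC k N) := by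
  obtain ⟨d, hd, hdN, rfl⟩ := hs
  obtain ⟨p, hp, hp0⟩ := (Fermat.Agent.S28.isIntegralElem_V_of_dvd k 1 d (one_dvd d)).1
  let x₀ : Algebra.adjoin k {jk k N} := ⟨jk k N, Algebra.self_mem_adjoin_singleton k _⟩
  let φ : k[X] →+* Algebra.adjoin k {jk k N} := (Polynomial.aeval x₀).toRingHom
  refine ⟨p.map φ, (hp.map φ).ne_zero, ?_⟩
  apply Subtype.val_injective
  have hval : ∀ z : modularFunctionFieldFullC k N,
      (z : LaurentSeries k) = (modularFunctionFieldFullC k N).val.toRingHom z := fun _ => rfl
  rw [hval, Polynomial.aeval_def, Polynomial.eval₂_map, Polynomial.hom_eval₂]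
  have hcomp : ((modularFunctionFieldFullC k N).val.toRingHom.comp
      ((algebraMap (Algebra.adjoin k {jk k N}) (modularFunctionFieldFullC k N)).comp φ))
      = Fermat.Agent.S28.evAt (Fermat.Agent.S28.V k 1 (Fermat.Agent.S28.J k)) := by
    apply Polynomial.ringHom_ext
    · intro c
      simp only [φ, Fermat.Agent.S28.evAt, RingHom.comp_apply, AlgHom.toRingHom_eq_coe,
        RingHom.coe_coe, Polynomial.aeval_C, Polynomial.coe_eval₂RingHom, Polynomial.eval₂_C]
      show algebraMap k (LaurentSeries k) c = HahnSeries.C c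
      rw [algebraMap_laurentSeries_eq_single]
      rfl
    · simp only [φ, Fermat.Agent.S28.evAt, RingHom.comp_apply, AlgHom.toRingHom_eq_coe,
        RingHom.coe_coe, Polynomial.aeval_X, Polynomial.coe_eval₂RingHom, Polynomial.eval₂_X]
      show jqModC k = qExpand k 1 (jqModC k)
      rw [qExpand_one_apply]
  rw [hcomp]
  exact hp0

instance instFF1 : Fermat.Agent.S26.FF1 k (modularFunctionFieldFullC k N) :=
  ff1_adjoin _ (divisorExpansionsC_finite k N) (jk k N) (transcendental_jk k N)
    (isAlgebraic_gen k N)

/-- A function on the reduced curve without zeros and poles is constant. -/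
theorem exists_const [IsAlgClosed k] (y : modularFunctionFieldFullC k N)
    (hy : ∀ Q : Place k (modularFunctionFieldFullC k N), Q.ord y = 0) :
    ∃ c : k, algebraMap k (modularFunctionFieldFullC k N) c = y := by
  by_contra hcon
  have htr : Transcendental k y := by
    intro halg
    exact hcon (Fermat.Agent.S24.FF.mem_range_of_not_transcendental k (fun h => h halg))
  obtain ⟨Q, hQ⟩ := Fermat.Agent.S26.exists_ord_pos htr
  rw [hy Q] at hQ
  exact lt_irrefl _ hQ

end Fk

section Lift

variable {L : Type*} [Field L] [Algebra ℚ L] {A : ValuationSubring L}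
variable {k : Type*} [Field k] {π : A →+* k} {N : ℕ}

theorem exists_lift_of_mem_adjoin (hπ : Function.Surjective π) {x : LaurentSeries k}
    (hx : x ∈ Algebra.adjoin k (divisorExpansionsC k N)) :
    ∃ y : LaurentSeries A, coeffMap A.subtype y ∈ laurentBaseChange L (modularFunctionFieldFull N) ∧
      coeffMap π y = x := by
  induction hx using Algebra.adjoin_induction with
  | mem x hx =>
    obtain ⟨d, hd, hdN, rfl⟩ := hx
    refine ⟨qExpand A d (jqModC A), ?_, ?_⟩
    · have h1 : coeffMap A.subtype (qExpand A d (jqModC A))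
          = coeffEmb L (qExpand ℚ d (jqModC ℚ)) := by
        rw [coeffMap_qExpand, coeffMap_jqModC, coeffEmb, coeffMap_qExpand, coeffMap_jqModC]
      rw [h1]
      exact coeffEmb_mem_laurentBaseChange L (jqModCd_mem_full ℚ N hdN)
    · rw [coeffMap_qExpand, coeffMap_jqModC]
  | algebraMap c =>
    obtain ⟨a, rfl⟩ := hπ c
    refine ⟨HahnSeries.single 0 a, ?_, ?_⟩
    · rw [coeffMap_single, ← algebraMap_laurentSeries_eq_single]
      exact IntermediateField.algebraMap_mem _ _
    · rw [coeffMap_single, ← algebraMap_laurentSeries_eq_single]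
  | add x y _ _ hx hy =>
    obtain ⟨a, ha, rfl⟩ := hx
    obtain ⟨b, hb, rfl⟩ := hy
    exact ⟨a + b, by rw [map_add]; exact add_mem ha hb, map_add _ _ _⟩
  | mul x y _ _ hx hy =>
    obtain ⟨a, ha, rfl⟩ := hx
    obtain ⟨b, hb, rfl⟩ := hy
    exact ⟨a * b, by rw [map_mul]; exact mul_mem ha hb, map_mul _ _ _⟩

theorem exists_lift (hπ : Function.Surjective π) (u : modularFunctionFieldFullC k N) (hu : u ≠ 0) :
    ∃ (a b : LaurentSeries A) (ha : IsInt A π N a) (hb : IsInt A π N b), u = ha.red / hb.red := by
  obtain ⟨r, hr, s, hs, hrs⟩ := IntermediateField.mem_adjoin_iff_div.mp u.2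
  have hu' : (u : LaurentSeries k) ≠ 0 := fun h => hu (Subtype.ext h)
  have hr0 : r ≠ 0 := by
    rintro rfl
    exact hu' (by rw [hrs, zero_div])
  have hs0 : s ≠ 0 := by
    rintro rfl
    exact hu' (by rw [hrs, div_zero])
  obtain ⟨a, haL, rfl⟩ := exists_lift_of_mem_adjoin (L := L) (A := A) hπ hr
  obtain ⟨b, hbL, rfl⟩ := exists_lift_of_mem_adjoin (L := L) (A := A) hπ hs
  refine ⟨a, b, ⟨haL, IntermediateField.algebra_adjoin_le_adjoin k _ hr, hr0⟩,
    ⟨hbL, IntermediateField.algebra_adjoin_le_adjoin k _ hs, hs0⟩, ?_⟩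
  apply Subtype.ext
  exact hrs

end Lift

end

end Fermat.Agent.S18
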