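import Fermat.Agent.S18.Inputs

/-! # S18 glue, part 3: S18 from the quotient form of CRUX. -/

set_option autoImplicit false

open HahnSeries IntermediateField AlgebraicCurve ModularCurve

namespace Fermat.Agent.S18

noncomputable section

set_option synthInstance.maxHeartbeats 400000

/-- The quotient form of CRUX (board #406) for fixed `N`, `A`, `m`. -/
def CruxStatement (N : ℕ) (A : ValuationSubring (AlgebraicClosure ℚ)) (m : ℕ) : Prop :=
  ∀ (y₁ y₂ : LaurentSeries A)
    (h₁ : coeffMap A.subtype y₁ ∈ modularFunctionFieldBar N)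
    (h₂ : coeffMap A.subtype y₂ ∈ modularFunctionFieldBar N),
    coeffMap (IsLocalRing.residue A) y₁ = coeffMap (IsLocalRing.residue A) y₂ →
    coeffMap (IsLocalRing.residue A) y₂ ≠ 0 →
    (∀ P : Place (AlgebraicClosure ℚ) (modularFunctionFieldBar N),
      (m : ℤ) ∣ P.ord ((⟨_, h₁⟩ : modularFunctionFieldBar N) / ⟨_, h₂⟩)) →
    ∃ s : modularFunctionFieldBar N, s ^ m = (⟨_, h₁⟩ : modularFunctionFieldBar N) / ⟨_, h₂⟩

set_option maxHeartbeats 1000000 in
theorem result_of_crux (N : ℕ) [NeZero N] (A : ValuationSubring (AlgebraicClosure ℚ))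
    (h : ReductionInputsModL A N) (m : ℕ) (hm0 : m ≠ 0) (hcrux : CruxStatement N A m)
    (z : JZero N) (hmz : m • z = 0) (hz : reductionModL A N z = 0) : z = 0 := by
  obtain ⟨D, rfl⟩ := Pic0.mk_surjective z
  have hr := isPlaceReductionModL_placeReductionModL h
  have hgen : PrincipalGeneratedByIntegral A (IsLocalRing.residue A) N := h.choose_spec.2
  rw [reductionModL_mk h D] at hz
  have hz' : reductionDivAlong (placeReductionModL h) (D : Divisor _ _) ∈
      Divisor.principal (K := IsLocalRing.ResidueField A)
        (F := modularFunctionFieldFullC (IsLocalRing.ResidueField A) N) := by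
    have := (QuotientAddGroup.eq_zero_iff _).mp hz
    exact this
  have hmD : m • (D : Divisor (AlgebraicClosure ℚ) (modularFunctionFieldBar N)) ∈
      Divisor.principal (K := AlgebraicClosure ℚ) (F := modularFunctionFieldBar N) := by
    have h1 : Pic0.mk (m • D) = 0 := hmz
    have := (QuotientAddGroup.eq_zero_iff _).mp h1
    exact this
  have : IsAlgClosed (IsLocalRing.ResidueField A) := isAlgClosed_residueField A
  have := Fermat.Agent.S24.finiteDimensional_FN N
  have key := principal_of_crux hr hgen IsLocalRing.residue_surjective m hm0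
    (fun f hf => Fermat.Agent.S24.FF.finite_ord_ne_zero (AlgebraicClosure ℚ) (Fermat.Agent.S24.jN N)
      (Fermat.Agent.S24.transcendental_jN N) hf)
    (fun y _ hy => exists_const _ N y hy)
    (fun u hu => exists_lift IsLocalRing.residue_surjective u hu)
    (fun y₁ y₂ h₁ h₂ hred hdiv => hcrux y₁ y₂ h₁.memL h₂.memL hred h₂.ne hdiv)
    (D : Divisor _ _) hmD hz'
  exact (QuotientAddGroup.eq_zero_iff _).mpr key

end

end Fermat.Agent.S18
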