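import Fermat.Statements.S18
import Fermat.Agent.S24.FF.PlaceBasic

/-! # S18 glue, part 1 (abstract): from the quotient form of CRUX to injectivity of the reduction
map on prime-to-`ℓ` torsion.  Everything here is formal manipulation of divisors. -/

set_option autoImplicit false

open HahnSeries IntermediateField AlgebraicCurve ModularCurve

namespace Fermat.Agent.S18

noncomputable section

variable {L : Type*} [Field L] [Algebra ℚ L] (A : ValuationSubring L)
variable {k : Type*} [Field k] (π : A →+* k) (N : ℕ)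

local notation "FL" => laurentBaseChange L (modularFunctionFieldFull N)
local notation "Fk" => modularFunctionFieldFullC k N

/-- `y ∈ A((q))` is *integral* for level `N`: it lies in the function field, its reduction lies in the
reduced function field and is nonzero. -/
structure IsInt (y : LaurentSeries A) : Prop where
  memL : coeffMap A.subtype y ∈ FL
  memk : coeffMap π y ∈ Fk
  ne : coeffMap π y ≠ 0

variable {A π N}

/-- the generic fibre of an integral element -/
def IsInt.gen {y : LaurentSeries A} (h : IsInt A π N y) : FL := ⟨coeffMap A.subtype y, h.memL⟩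

/-- the reduction of an integral element -/
def IsInt.red {y : LaurentSeries A} (h : IsInt A π N y) : Fk := ⟨coeffMap π y, h.memk⟩

theorem IsInt.red_ne_zero {y : LaurentSeries A} (h : IsInt A π N y) : h.red ≠ 0 :=
  fun h0 => h.ne (congrArg Subtype.val h0)

omit [Algebra ℚ L] in
theorem coeffMap_subtype_injective : Function.Injective (coeffMap A.subtype) := by
  intro x y hxy
  ext n
  have := congrArg (fun z => z.coeff n) hxy
  simpa using this

theorem IsInt.gen_ne_zero {y : LaurentSeries A} (h : IsInt A π N y) : h.gen ≠ 0 := by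
  intro h0
  have h1 : coeffMap A.subtype y = 0 := congrArg Subtype.val h0
  have h2 : y = 0 := coeffMap_subtype_injective (by rw [h1, map_zero])
  exact h.ne (by rw [h2, map_zero])

theorem IsInt.one : IsInt A π N (1 : LaurentSeries A) where
  memL := by rw [map_one]; exact one_mem _
  memk := by rw [map_one]; exact one_mem _
  ne := by rw [map_one]; exact one_ne_zero

theorem IsInt.mul {y z : LaurentSeries A} (hy : IsInt A π N y) (hz : IsInt A π N z) :
    IsInt A π N (y * z) where
  memL := by rw [map_mul]; exact mul_mem hy.memL hz.memL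
  memk := by rw [map_mul]; exact mul_mem hy.memk hz.memk
  ne := by rw [map_mul]; exact mul_ne_zero hy.ne hz.ne

theorem IsInt.gen_one : (IsInt.one : IsInt A π N 1).gen = 1 := Subtype.ext (map_one _)

theorem IsInt.red_one : (IsInt.one : IsInt A π N 1).red = 1 := Subtype.ext (map_one _)

theorem IsInt.gen_mul {y z : LaurentSeries A} (hy : IsInt A π N y) (hz : IsInt A π N z) :
    (hy.mul hz).gen = hy.gen * hz.gen := Subtype.ext (map_mul _ _ _)

theorem IsInt.red_mul {y z : LaurentSeries A} (hy : IsInt A π N y) (hz : IsInt A π N z) :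
    (hy.mul hz).red = hy.red * hz.red := Subtype.ext (map_mul _ _ _)


/-- Every divisor in the closure of the integral principal divisors is `div y₁ - div y₂` with
`y₁, y₂` integral, and its push-forward is `div ȳ₁ - div ȳ₂`. -/
theorem exists_isInt_of_mem_closure {r : Place L FL → Place k Fk}
    (hr : IsPlaceReductionAlong A π N r)
    {E : Divisor L FL} (hE : E ∈ AddSubgroup.closure (integralPrincipalDivisors A π N)) :
    ∃ (y₁ y₂ : LaurentSeries A) (h₁ : IsInt A π N y₁) (h₂ : IsInt A π N y₂),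
      (∀ P : Place L FL, E P = P.ord h₁.gen - P.ord h₂.gen) ∧
      (∀ Q : Place k Fk, reductionDivAlong r E Q = Q.ord h₁.red - Q.ord h₂.red) := by
  induction hE using AddSubgroup.closure_induction with
  | mem E hE =>
    obtain ⟨y, hy, hyk, hne, hD⟩ := hE
    refine ⟨y, 1, ⟨hy, hyk, hne⟩, IsInt.one, fun P => ?_, fun Q => ?_⟩
    · rw [IsInt.gen_one, Place.ord_one, sub_zero]; exact hD P
    · rw [IsInt.red_one, Place.ord_one, sub_zero]; exact hr.2 y hy hyk hne E hD Q
  | zero =>
    refine ⟨1, 1, IsInt.one, IsInt.one, fun P => ?_, fun Q => ?_⟩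
    · simp
    · simp
  | add E E' _ _ hE hE' =>
    obtain ⟨y₁, y₂, h₁, h₂, hP, hQ⟩ := hE
    obtain ⟨z₁, z₂, g₁, g₂, hP', hQ'⟩ := hE'
    refine ⟨y₁ * z₁, y₂ * z₂, h₁.mul g₁, h₂.mul g₂, fun P => ?_, fun Q => ?_⟩
    · rw [Finsupp.add_apply, hP, hP', IsInt.gen_mul h₁ g₁, IsInt.gen_mul h₂ g₂,
        P.ord_mul h₁.gen_ne_zero g₁.gen_ne_zero, P.ord_mul h₂.gen_ne_zero g₂.gen_ne_zero]
      ring
    · rw [map_add, Finsupp.add_apply, hQ, hQ', IsInt.red_mul h₁ g₁, IsInt.red_mul h₂ g₂,
        Q.ord_mul h₁.red_ne_zero g₁.red_ne_zero, Q.ord_mul h₂.red_ne_zero g₂.red_ne_zero]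
      ring
  | neg E _ hE =>
    obtain ⟨y₁, y₂, h₁, h₂, hP, hQ⟩ := hE
    refine ⟨y₂, y₁, h₂, h₁, fun P => ?_, fun Q => ?_⟩
    · rw [Finsupp.neg_apply, hP]; ring
    · rw [map_neg, Finsupp.neg_apply, hQ]
      ring

/-- constants with nonzero reduction are integral -/
theorem IsInt.const {c : A} (hc : π c ≠ 0) : IsInt A π N (HahnSeries.single 0 c) where
  memL := by
    rw [coeffMap_single, ← algebraMap_laurentSeries_eq_single]
    exact IntermediateField.algebraMap_mem _ _
  memk := by
    rw [coeffMap_single, ← algebraMap_laurentSeries_eq_single]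
    exact IntermediateField.algebraMap_mem _ _
  ne := by
    rw [coeffMap_single]
    intro h
    exact hc (by simpa using h)

theorem IsInt.gen_const {c : A} (hc : π c ≠ 0) :
    (IsInt.const hc : IsInt A π N _).gen = algebraMap L FL (c : L) := by
  apply Subtype.ext
  show coeffMap A.subtype (HahnSeries.single 0 c) = algebraMap L (LaurentSeries L) (c : L)
  rw [coeffMap_single, ← algebraMap_laurentSeries_eq_single]
  rfl

theorem IsInt.red_const {c : A} (hc : π c ≠ 0) :
    (IsInt.const hc : IsInt A π N _).red = algebraMap k Fk (π c) := by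
  apply Subtype.ext
  show coeffMap π (HahnSeries.single 0 c) = algebraMap k (LaurentSeries k) (π c)
  rw [coeffMap_single, ← algebraMap_laurentSeries_eq_single]

/-- the divisor of a nonzero function, given finiteness of its support -/
theorem exists_divisor {K F : Type*} [Field K] [Field F] [Algebra K F] {f : F}
    (hfin : {v : Place K F | v.ord f ≠ 0}.Finite) :
    ∃ D : Divisor K F, ∀ v, D v = v.ord f :=
  ⟨Finsupp.onFinset hfin.toFinset (fun v => v.ord f) (fun v hv => by simpa using hv), fun _ => rfl⟩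

set_option maxHeartbeats 2000000 in
/-- **Abstract glue.**  A degree zero divisor `D` with `m D` principal and principal reduction is principal,
provided the quotient form of CRUX holds. -/
theorem principal_of_crux {r : Place L FL → Place k Fk}
    (hr : IsPlaceReductionAlong A π N r) (hgen : PrincipalGeneratedByIntegral A π N)
    (hπ : Function.Surjective π) (m : ℕ) (hm0 : m ≠ 0)
    (hfin : ∀ f : FL, f ≠ 0 → {v : Place L FL | v.ord f ≠ 0}.Finite)
    (hconst : ∀ y : Fk, y ≠ 0 → (∀ Q : Place k Fk, Q.ord y = 0) → ∃ c : k, algebraMap k Fk c = y)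
    (hlift : ∀ u : Fk, u ≠ 0 → ∃ (a b : LaurentSeries A) (ha : IsInt A π N a) (hb : IsInt A π N b),
      u = ha.red / hb.red)
    (hcrux : ∀ (y₁ y₂ : LaurentSeries A) (h₁ : IsInt A π N y₁) (h₂ : IsInt A π N y₂),
      coeffMap π y₁ = coeffMap π y₂ → (∀ P : Place L FL, (m : ℤ) ∣ P.ord (h₁.gen / h₂.gen)) →
      ∃ s : FL, s ^ m = h₁.gen / h₂.gen)
    (D : Divisor L FL) (hmD : m • D ∈ Divisor.principal (K := L) (F := FL))
    (hred : reductionDivAlong r D ∈ Divisor.principal (K := k) (F := Fk)) :
    D ∈ Divisor.principal (K := L) (F := FL) := by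
  obtain ⟨u, hu0, hu⟩ := hred
  obtain ⟨a, b, ha, hb, hab⟩ := hlift u hu0
  obtain ⟨Da, hDa⟩ := exists_divisor (hfin ha.gen ha.gen_ne_zero)
  obtain ⟨Db, hDb⟩ := exists_divisor (hfin hb.gen hb.gen_ne_zero)
  have hDa' : Da ∈ Divisor.principal (K := L) (F := FL) := ⟨ha.gen, ha.gen_ne_zero, hDa⟩
  have hDb' : Db ∈ Divisor.principal (K := L) (F := FL) := ⟨hb.gen, hb.gen_ne_zero, hDb⟩
  have hrDa : ∀ Q : Place k Fk, reductionDivAlong r Da Q = Q.ord ha.red :=
    fun Q => hr.2 a ha.memL ha.memk ha.ne Da hDa Q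
  have hrDb : ∀ Q : Place k Fk, reductionDivAlong r Db Q = Q.ord hb.red :=
    fun Q => hr.2 b hb.memL hb.memk hb.ne Db hDb Q
  set D' : Divisor L FL := D - Da + Db with hD'
  have hrD' : reductionDivAlong r D' = 0 := by
    ext Q
    rw [hD', map_add, map_sub, Finsupp.add_apply, Finsupp.sub_apply, hu Q, hrDa, hrDb, hab,
      div_eq_mul_inv, Q.ord_mul ha.red_ne_zero (inv_ne_zero hb.red_ne_zero), Q.ord_inv]
    simp
  have hmD' : m • D' ∈ Divisor.principal (K := L) (F := FL) := by
    rw [hD', smul_add, smul_sub]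
    exact add_mem (sub_mem hmD (nsmul_mem hDa' m)) (nsmul_mem hDb' m)
  obtain ⟨y₁, y₂, h₁, h₂, hP, hQ⟩ := exists_isInt_of_mem_closure hr (hgen hmD')
  have hQ0 : ∀ Q : Place k Fk, Q.ord (h₁.red / h₂.red) = 0 := by
    intro Q
    have := hQ Q
    rw [map_nsmul, hrD', smul_zero, Finsupp.zero_apply] at this
    rw [div_eq_mul_inv, Q.ord_mul h₁.red_ne_zero (inv_ne_zero h₂.red_ne_zero), Q.ord_inv]
    linarith
  obtain ⟨cbar, hcbar⟩ := hconst _ (div_ne_zero h₁.red_ne_zero h₂.red_ne_zero) hQ0
  obtain ⟨c, rfl⟩ := hπ cbar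
  have hc0 : π c ≠ 0 := by
    intro h
    rw [h, map_zero] at hcbar
    exact div_ne_zero h₁.red_ne_zero h₂.red_ne_zero hcbar.symm
  have h₃ : IsInt A π N (HahnSeries.single 0 c * y₂) := (IsInt.const hc0).mul h₂
  have hgen₃ : h₃.gen = algebraMap L FL (c : L) * h₂.gen := by
    rw [← IsInt.gen_const hc0]; exact IsInt.gen_mul _ _
  have hred₃ : h₃.red = h₁.red := by
    have : h₃.red = algebraMap k Fk (π c) * h₂.red := by
      rw [← IsInt.red_const hc0]; exact IsInt.red_mul _ _
    rw [this, hcbar, div_mul_cancel₀ _ h₂.red_ne_zero]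
  have hcL : algebraMap L FL (c : L) ≠ 0 := by
    rw [← IsInt.gen_const (N := N) hc0]; exact IsInt.gen_ne_zero _
  have hord : ∀ P : Place L FL, P.ord (h₁.gen / h₃.gen) = (m : ℤ) * D' P := by
    intro P
    have h1 := hP P
    rw [Finsupp.smul_apply, nsmul_eq_mul] at h1
    have hc1 : P.ord (algebraMap L FL (c : L)) = 0 := Fermat.Agent.S24.FF.ord_algebraMap P _
    rw [div_eq_mul_inv, P.ord_mul h₁.gen_ne_zero (inv_ne_zero h₃.gen_ne_zero), P.ord_inv, hgen₃,
      P.ord_mul hcL h₂.gen_ne_zero, hc1, h1]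
    ring
  obtain ⟨s, hs⟩ := hcrux y₁ _ h₁ h₃ (congrArg Subtype.val hred₃).symm
    (fun P => ⟨D' P, hord P⟩)
  have hs0 : s ≠ 0 := by
    intro h
    rw [h, zero_pow hm0] at hs
    exact div_ne_zero h₁.gen_ne_zero h₃.gen_ne_zero hs.symm
  have hD'p : D' ∈ Divisor.principal (K := L) (F := FL) := by
    refine ⟨s, hs0, fun P => ?_⟩
    have h1 := hord P
    rw [← hs, ← zpow_natCast, P.ord_zpow] at h1
    have hm : (m : ℤ) ≠ 0 := by exact_mod_cast hm0
    exact (mul_left_cancel₀ hm h1).symm
  have : D = D' + Da - Db := by rw [hD']; abel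
  rw [this]
  exact sub_mem (add_mem hD'p hDa') hDb'

end

end Fermat.Agent.S18
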